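import Fermat.Agent.PeriodPolynomial.Delta

/-!
# The completed `L`-function of `Δ` is positive on the real axis

`Δ(it)` is a product of positive numbers, so its Mellin transform is positive.
-/

set_option autoImplicit false

noncomputable section

namespace FA.PeriodPolynomial

open Complex Filter Topology Set MeasureTheory FA.HeckeConverse
open UpperHalfPlane hiding I
open scoped Real

/-- `Δ(it)` is a positive real number. -/
theorem qSum_tauC_axis_pos {t : ℝ} (ht : 0 < t) :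
    ∃ r : ℝ, 0 < r ∧ qSum 1 tauC (I * t) = r := by
  obtain ⟨z, hz⟩ : ∃ z : ℍ, (z : ℂ) = I * t := ⟨⟨I * t, by simpa using ht⟩, rfl⟩
  obtain ⟨K, hK⟩ := growth_tauC
  have hval : qSum 1 tauC (I * t) = ModularForm.discriminant z := by
    rw [← hz]
    exact (hasSum_qSum hK one_pos z.im_pos).unique
      (ModularForm.hasSum_qExpansion (f := deltaMF) one_pos one_mem_strictPeriods_SL z)
  obtain ⟨ρ, hρ⟩ : ∃ ρ : ℝ, ρ = Real.exp (-(2 * π * t)) := ⟨_, rfl⟩
  have hq : Function.Periodic.qParam 1 (z : ℂ) = (ρ : ℂ) := by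
    rw [hρ, hz, Function.Periodic.qParam, Complex.ofReal_exp]
    congr 1
    push_cast
    linear_combination 2 * (π : ℂ) * t * I_sq
  obtain ⟨S, hS⟩ : ∃ S : Set ℂ, S = {w : ℂ | 0 ≤ w.re ∧ w.im = 0} := ⟨_, rfl⟩
  have hcl : IsClosed S := hS ▸ (isClosed_le continuous_const Complex.continuous_re).inter
    (isClosed_eq Complex.continuous_im continuous_const)
  have hρ1 : ρ ≤ 1 := by
    rw [hρ, Real.exp_le_one_iff, neg_nonpos]
    positivity
  have hρ0 : 0 < ρ := hρ ▸ Real.exp_pos _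
  have hmul : Multipliable fun n : ℕ => (1 - ModularForm.eta_q n (z : ℂ)) ^ 24 :=
    (ModularForm.multipliableLocallyUniformlyOn_eta.multipliable z.im_pos).pow 24
  have hmem : (∏' n : ℕ, (1 - ModularForm.eta_q n (z : ℂ)) ^ 24) ∈ S := by
    refine hcl.mem_of_tendsto hmul.hasProd (Eventually.of_forall fun s => ?_)
    have hterm : ∀ n : ℕ, (1 - ModularForm.eta_q n (z : ℂ)) ^ 24 =
        (((1 - ρ ^ (n + 1)) ^ 24 : ℝ) : ℂ) := fun n => by
      rw [ModularForm.eta_q, hq]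
      push_cast
      ring
    simp only [hterm]
    rw [← Complex.ofReal_prod, hS]
    refine ⟨?_, Complex.ofReal_im _⟩
    rw [Complex.ofReal_re]
    exact Finset.prod_nonneg fun n _ => pow_nonneg (sub_nonneg.2 (pow_le_one₀ hρ0.le hρ1)) _
  rw [hS] at hmem
  obtain ⟨r, hr⟩ : ∃ r : ℝ, r = (∏' n : ℕ, (1 - ModularForm.eta_q n (z : ℂ)) ^ 24).re := ⟨_, rfl⟩
  have hprod : (∏' n : ℕ, (1 - ModularForm.eta_q n (z : ℂ)) ^ 24) = (r : ℂ) :=
    Complex.ext (by simp [hr]) (by simpa using hmem.2)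
  have hΔ := ModularForm.discriminant_eq_q_prod z
  rw [hq, hprod] at hΔ
  have hr0 : r ≠ 0 := fun e => ModularForm.discriminant_ne_zero z (by rw [hΔ, e]; simp)
  refine ⟨ρ * r, mul_pos hρ0 (lt_of_le_of_ne (hr ▸ hmem.1) (Ne.symm hr0)), ?_⟩
  rw [hval, hΔ, Complex.ofReal_mul]

/-- The completed `L`-function of `Δ` is positive at every real point. -/
theorem continuation_pos {E : ℂ → ℂ} (hE : IsContinuation tauC E) (s : ℝ) :
    (E s).im = 0 ∧ 0 < (E s).re := by
  obtain ⟨K, hK⟩ := growth_tauC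
  obtain ⟨hconv, hval⟩ := hE.hasMellin hK tauC_zero transforms_tauC (s : ℂ)
  choose r hr0 hr using fun (t : ℝ) (ht : 0 < t) => qSum_tauC_axis_pos ht
  obtain ⟨g, hg⟩ : ∃ g : ℝ → ℝ,
      g = fun t : ℝ => ((t : ℂ) ^ ((s : ℂ) - 1) • qSum 1 tauC (I * t)).re := ⟨_, rfl⟩
  have hgc : ∀ t : ℝ, 0 < t →
      (t : ℂ) ^ ((s : ℂ) - 1) • qSum 1 tauC (I * t) = (g t : ℂ) ∧ 0 < g t := fun t ht => by
    have e : (t : ℂ) ^ ((s : ℂ) - 1) • qSum 1 tauC (I * t) =
        ((t ^ (s - 1) * r t ht : ℝ) : ℂ) := by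
      rw [hr t ht, smul_eq_mul, Complex.ofReal_mul, Complex.ofReal_cpow ht.le]
      push_cast
      ring
    have hg' : g t = t ^ (s - 1) * r t ht := by rw [hg]; dsimp only; rw [e, Complex.ofReal_re]
    exact ⟨hg' ▸ e, hg' ▸ mul_pos (Real.rpow_pos_of_pos ht _) (hr0 t ht)⟩
  have hgi : IntegrableOn g (Ioi 0) := hg ▸ hconv.re
  have hE' : E s = ((∫ t in Ioi (0 : ℝ), g t : ℝ) : ℂ) := by
    rw [← hval, mellin]
    refine (setIntegral_congr_fun measurableSet_Ioi fun t ht => (hgc t ht).1).trans ?_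
    exact integral_ofReal
  rw [hE']
  refine ⟨Complex.ofReal_im _, ?_⟩
  rw [Complex.ofReal_re, setIntegral_pos_iff_support_of_nonneg_ae
    ((ae_restrict_mem measurableSet_Ioi).mono fun t ht => (hgc t ht).2.le) hgi]
  refine lt_of_lt_of_le (by simp) (measure_mono (s := Ioo (1 : ℝ) 2) fun t ht => ?_)
  have ht0 : 0 < t := zero_lt_one.trans ht.1
  exact ⟨(hgc t ht0).2.ne', ht0⟩

end FA.PeriodPolynomial

end
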