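import Fermat.Agent.PeriodPolynomial.Integral

/-!
# The cocycle relations of Eichler and Shimura

If `f (-1/z) = z ^ (n + 2) f z` then `prim P (-1/z) = prim (flip P) z + per P`, and `S² = 1`,
`(S T)³ = 1` give `per P + per (flip P) = 0` and `per P + per (uOp P) + per (uOp (uOp P)) = 0`.
-/

set_option autoImplicit false

noncomputable section

namespace FA.PeriodPolynomial

open Complex Filter Topology Set FA.HeckeConverse
open scoped Real Polynomial

variable {a : ℕ → ℂ} {K : ℝ} {σ n : ℕ}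

/-- `P ↦ zⁿ P (-1/z)`. -/
def flip (n : ℕ) (P : ℂ[X]) : ℂ[X] :=
  ∑ j ∈ Finset.range (n + 1), Polynomial.C (P.coeff j * (-1) ^ j) * Polynomial.X ^ (n - j)

/-- `P ↦ (z + 1)ⁿ P (-1/(z + 1))`, the action of `S T`. -/
def uOp (n : ℕ) (P : ℂ[X]) : ℂ[X] := (flip n P).comp (Polynomial.X + 1)

theorem natDegree_flip_le (n : ℕ) (P : ℂ[X]) : (flip n P).natDegree ≤ n :=
  Polynomial.natDegree_sum_le_of_forall_le _ _ fun j _ =>
    (Polynomial.natDegree_C_mul_X_pow_le _ _).trans (Nat.sub_le n j)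

theorem natDegree_uOp_le (n : ℕ) (P : ℂ[X]) : (uOp n P).natDegree ≤ n := by
  refine Polynomial.natDegree_comp_le.trans ?_
  rw [show (Polynomial.X + 1 : ℂ[X]) = Polynomial.X + Polynomial.C 1 by simp,
    Polynomial.natDegree_X_add_C, mul_one]
  exact natDegree_flip_le n P

theorem eval_flip {P : ℂ[X]} (hP : P.natDegree ≤ n) {z : ℂ} (hz : z ≠ 0) :
    (flip n P).eval z = z ^ n * P.eval (-1 / z) := by
  rw [Polynomial.eval_eq_sum_range' (Nat.lt_succ_of_le hP), Finset.mul_sum, flip,
    Polynomial.eval_finsetSum]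
  refine Finset.sum_congr rfl fun j hj => ?_
  have hjn : j ≤ n := Nat.lt_succ_iff.1 (Finset.mem_range.1 hj)
  rw [Polynomial.eval_mul, Polynomial.eval_C, Polynomial.eval_pow, Polynomial.eval_X, div_pow,
    ← pow_sub_mul_pow z hjn]
  field_simp

theorem eval_uOp {P : ℂ[X]} (hP : P.natDegree ≤ n) {z : ℂ} (hz : z + 1 ≠ 0) :
    (uOp n P).eval z = (z + 1) ^ n * P.eval (-1 / (z + 1)) := by
  rw [uOp, Polynomial.eval_comp, Polynomial.eval_add, Polynomial.eval_X, Polynomial.eval_one,
    eval_flip hP hz]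

theorem flip_flip (hn : Even n) {P : ℂ[X]} (hP : P.natDegree ≤ n) : flip n (flip n P) = P := by
  refine Polynomial.eq_of_infinite_eval_eq _ _ (Set.Infinite.mono (s := {0}ᶜ) (fun z hz => ?_)
    (Set.finite_singleton (0 : ℂ)).infinite_compl)
  have hz0 : z ≠ 0 := hz
  show (flip n (flip n P)).eval z = P.eval z
  rw [eval_flip (natDegree_flip_le n P) hz0, eval_flip hP (by simp [hz0]),
    ← mul_assoc, ← mul_pow, mul_div_cancel₀ _ hz0, hn.neg_one_pow, one_mul]
  congr 1
  field_simp

theorem uOp_cube (hn : Even n) {P : ℂ[X]} (hP : P.natDegree ≤ n) :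
    uOp n (uOp n (uOp n P)) = P := by
  refine Polynomial.eq_of_infinite_eval_eq _ _ (Set.Infinite.mono (s := ({0, -1} : Set ℂ)ᶜ)
    (fun z hz => ?_) (Set.toFinite ({0, -1} : Set ℂ)).infinite_compl)
  simp only [mem_compl_iff, mem_insert_iff, mem_singleton_iff, not_or] at hz
  obtain ⟨hz0, hz1⟩ := hz
  have h1 : z + 1 ≠ 0 := fun h => hz1 (eq_neg_of_add_eq_zero_left h)
  have e1 : -1 / (z + 1) + 1 = z / (z + 1) := by
    field_simp
    ring
  have h2 : -1 / (z + 1) + 1 ≠ 0 := by rw [e1]; exact div_ne_zero hz0 h1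
  have e2 : -1 / (-1 / (z + 1) + 1) + 1 = -1 / z := by
    rw [e1]
    field_simp
    ring
  have h3 : -1 / (-1 / (z + 1) + 1) + 1 ≠ 0 := by
    rw [e2]; exact div_ne_zero (neg_ne_zero.2 one_ne_zero) hz0
  show (uOp n (uOp n (uOp n P))).eval z = P.eval z
  rw [eval_uOp (natDegree_uOp_le n _) h1, eval_uOp (natDegree_uOp_le n _) h2, eval_uOp hP h3, e2,
    e1, ← mul_assoc, ← mul_assoc, ← mul_pow, ← mul_pow]
  rw [show (z + 1) * (z / (z + 1)) * (-1 / z) = -1 by field_simp, hn.neg_one_pow, one_mul]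
  congr 1
  field_simp

/-- The period of `P`. -/
def per (a : ℕ → ℂ) (n : ℕ) (P : ℂ[X]) : ℂ := prim a n P I - prim a n (flip n P) I

theorem per_add (P Q : ℂ[X]) : per a n (P + Q) = per a n P + per a n Q := by
  have h : flip n (P + Q) = flip n P + flip n Q := by
    simp only [flip, Polynomial.coeff_add, add_mul, map_add, Finset.sum_add_distrib]
  rw [per, per, per, h, prim_add, prim_add]
  ring

theorem per_C_mul (c : ℂ) (P : ℂ[X]) : per a n (Polynomial.C c * P) = c * per a n P := by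
  have h : flip n (Polynomial.C c * P) = Polynomial.C c * flip n P := by
    simp only [flip, Finset.mul_sum]
    exact Finset.sum_congr rfl fun j _ => by
      rw [Polynomial.coeff_C_mul, mul_assoc, Polynomial.C_mul]; ring
  rw [per, per, h, prim_C_mul, prim_C_mul]
  ring

theorem per_zero : per a n 0 = 0 := by simpa using per_C_mul (a := a) (n := n) 0 (0 : ℂ[X])

theorem per_sum {ι : Type*} (s : Finset ι) (c : ι → ℂ) (P : ι → ℂ[X]) :
    per a n (∑ i ∈ s, Polynomial.C (c i) * P i) = ∑ i ∈ s, c i * per a n (P i) := by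
  classical
  induction s using Finset.induction_on with
  | empty => simp [per_zero]
  | insert i s hi ih => rw [Finset.sum_insert hi, Finset.sum_insert hi, per_add, per_C_mul, ih]

theorem per_eq_sum {P : ℂ[X]} (hP : P.natDegree ≤ n) :
    per a n P = ∑ j ∈ Finset.range (n + 1), P.coeff j * per a n (Polynomial.X ^ j) := by
  conv_lhs => rw [P.as_sum_range_C_mul_X_pow' (Nat.lt_succ_of_le hP)]
  exact per_sum _ _ _

/-- **The cocycle of `S`.** -/
theorem prim_neg_one_div (ha : Growth a K σ) (h0 : a 0 = 0)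
    (hS : ∀ z : ℂ, 0 < z.im → qSum 1 a (-1 / z) = z ^ (n + 2) * qSum 1 a z)
    {P : ℂ[X]} (hP : P.natDegree ≤ n) {z : ℂ} (hz : 0 < z.im) :
    prim a n P (-1 / z) = prim a n (flip n P) z + per a n P := by
  have him : ∀ w : ℂ, 0 < w.im → 0 < (-1 / w : ℂ).im := fun w hw => by
    have hw0 : w ≠ 0 := fun e => by simp [e] at hw
    simp [Complex.div_im]
    exact div_neg_of_neg_of_pos (neg_lt_zero.2 hw) (Complex.normSq_pos.2 hw0)
  have hd : ∀ w : ℂ, 0 < w.im →
      HasDerivAt (fun u => prim a n P (-1 / u) - prim a n (flip n P) u) 0 w := fun w hw => by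
    have hw0 : w ≠ 0 := fun e => by simp [e] at hw
    have hin : HasDerivAt (fun u : ℂ => -1 / u) (1 / w ^ 2) w := by
      have := (hasDerivAt_inv hw0).const_mul (-1 : ℂ)
      simpa [div_eq_mul_inv] using this
    refine (((hasDerivAt_prim ha h0 hP (him w hw)).comp w hin).sub
      (hasDerivAt_prim ha h0 (natDegree_flip_le n P) hw)).congr_deriv ?_
    rw [hS w hw, eval_flip hP hw0, pow_add]
    field_simp
    ring
  obtain ⟨U, hU⟩ : ∃ U : Set ℂ, U = {w | 0 < w.im} := ⟨_, rfl⟩
  have hUo : IsOpen U := hU ▸ isOpen_lt continuous_const Complex.continuous_im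
  have h := hUo.is_const_of_deriv_eq_zero
    (f := fun u => prim a n P (-1 / u) - prim a n (flip n P) u)
    (hU ▸ (convex_halfSpace_im_gt 0).isPreconnected)
    (fun w hw => (hd w (hU ▸ hw : w ∈ {w : ℂ | 0 < w.im})).differentiableAt.differentiableWithinAt)
    (fun w hw => (hd w (hU ▸ hw : w ∈ {w : ℂ | 0 < w.im})).deriv)
    (show z ∈ U by rw [hU]; exact hz) (show I ∈ U by simp [hU])
  simp only [show -1 / I = I by field_simp; exact I_sq.symm] at h
  rw [per]
  linear_combination h

/-- The limit of `prim P` at `0` along the imaginary axis is the period. -/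
theorem tendsto_prim_zero (ha : Growth a K σ) (h0 : a 0 = 0)
    (hS : ∀ z : ℂ, 0 < z.im → qSum 1 a (-1 / z) = z ^ (n + 2) * qSum 1 a z)
    {P : ℂ[X]} (hP : P.natDegree ≤ n) :
    Tendsto (fun y : ℝ => prim a n P (I * y)) (𝓝[>] 0) (𝓝 (per a n P)) := by
  have h := ((tendsto_prim_vertical (n := n) ha (flip n P) 0).comp
    tendsto_inv_nhdsGT_zero).add_const
    (per a n P)
  rw [zero_add] at h
  refine h.congr' (eventually_nhdsWithin_of_forall fun y (hy : 0 < y) => ?_)
  simp only [Function.comp_apply, ofReal_zero, zero_add]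
  rw [← prim_neg_one_div ha h0 hS hP (by simpa using inv_pos.2 hy)]
  congr 1
  push_cast
  field_simp
  linear_combination -(y : ℂ) * I_sq

/-- **The relation from `S² = 1`.** -/
theorem per_flip (hn : Even n) {P : ℂ[X]} (hP : P.natDegree ≤ n) :
    per a n P + per a n (flip n P) = 0 := by
  rw [per, per, flip_flip hn hP]
  ring

/-- **The relation from `(S T)³ = 1`.** -/
theorem per_uOp (hn : Even n) (ha : Growth a K σ) (h0 : a 0 = 0)
    (hS : ∀ z : ℂ, 0 < z.im → qSum 1 a (-1 / z) = z ^ (n + 2) * qSum 1 a z)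
    {P : ℂ[X]} (hP : P.natDegree ≤ n) :
    per a n P + per a n (uOp n P) + per a n (uOp n (uOp n P)) = 0 := by
  have him : ∀ w : ℂ, 0 < w.im → 0 < (-1 / (w + 1) : ℂ).im := fun w hw => by
    have hw0 : w + 1 ≠ 0 := fun e => by
      have := congrArg Complex.im e
      simp at this
      linarith
    simp [Complex.div_im]
    exact div_neg_of_neg_of_pos (neg_lt_zero.2 hw) (Complex.normSq_pos.2 hw0)
  have step : ∀ (Q : ℂ[X]), Q.natDegree ≤ n → ∀ w : ℂ, 0 < w.im →
      prim a n Q (-1 / (w + 1)) = prim a n (uOp n Q) w + per a n Q := fun Q hQ w hw => by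
    rw [prim_neg_one_div ha h0 hS hQ (by simpa using hw), prim_add_one]
    rfl
  have hI : 0 < I.im := by simp
  have e1 := step P hP _ (him _ (him _ hI))
  rw [step _ (natDegree_uOp_le n P) _ (him _ hI), step _ (natDegree_uOp_le n _) _ hI,
    uOp_cube hn hP] at e1
  have hI1 : (I : ℂ) + 1 ≠ 0 := fun e => by simpa using congrArg Complex.im e
  have hcube : -1 / (-1 / (-1 / (I + 1) + 1) + 1) = I := by
    have e' : -1 / (I + 1) + 1 = I / (I + 1) := by field_simp; ring
    have e'' : -1 / (I / (I + 1)) + 1 = -1 / I := by field_simp; ring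
    rw [e', e'']
    field_simp
  rw [hcube] at e1
  linear_combination -e1

end FA.PeriodPolynomial

end
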