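import Fermat.Agent.HeckeConverse.LevelOne
import Fermat.Agent.PeriodPolynomial.Relations

/-!
# The periods are critical values

`per (Xʲ) = -i ^ (j + 1) Λ (j + 1)` for the entire completed series `Λ`, by integrating along the
imaginary axis.
-/

set_option autoImplicit false

noncomputable section

namespace FA.PeriodPolynomial

open Complex Filter Topology Set MeasureTheory FA.HeckeConverse
open scoped Real Polynomial

variable {a : ℕ → ℂ} {K : ℝ} {σ n : ℕ}

theorem slash_of_transforms (h : Transforms 1 ((n + 2 : ℕ) : ℝ) (I ^ (n + 2)) a a) (z : ℂ)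
    (hz : 0 < z.im) : qSum 1 a (-1 / z) = z ^ (n + 2) * qSum 1 a z := by
  rw [h z hz, I_pow_mul_cpow]

/-- `E` is the entire continuation of the completed series. -/
def IsContinuation (a : ℕ → ℂ) (E : ℂ → ℂ) : Prop :=
  Differentiable ℂ E ∧ ∃ R : ℝ, ∀ s : ℂ, R < s.re → E s = completed 1 a s

/-- The continuation is the Mellin transform, everywhere. -/
theorem IsContinuation.hasMellin {E : ℂ → ℂ} (hE : IsContinuation a E) (ha : Growth a K σ)
    (h0 : a 0 = 0) (h : Transforms 1 ((n + 2 : ℕ) : ℝ) (I ^ (n + 2)) a a) (s : ℂ) :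
    HasMellin (fun t : ℝ => qSum 1 a (I * t)) s (E s) := by
  obtain ⟨P, hP⟩ : ∃ P, P = fePair one_pos
      (show (0 : ℝ) < ((n + 2 : ℕ) : ℝ) by positivity) (pow_ne_zero _ I_ne_zero) ha ha h := ⟨_, rfl⟩
  have hstrong : IsStrongFEPair P := by subst hP; exact ⟨h0, h0⟩
  obtain ⟨hd, R, hR⟩ := hE
  have heq : E = P.Λ := by
    refine (hd.differentiableOn.analyticOnNhd isOpen_univ).eq_of_eventuallyEq
      (hstrong.differentiable_Λ.differentiableOn.analyticOnNhd isOpen_univ)
      (z₀ := ((max R ((σ : ℝ) + 1) + 1 : ℝ) : ℂ)) ?_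
    have ho : IsOpen {w : ℂ | max R ((σ : ℝ) + 1) < w.re} :=
      isOpen_lt continuous_const Complex.continuous_re
    filter_upwards [ho.mem_nhds
      (show max R ((σ : ℝ) + 1) < ((max R ((σ : ℝ) + 1) + 1 : ℝ) : ℂ).re by simp)] with w hw
    obtain ⟨hw1, hw2⟩ := max_lt_iff.1 hw
    rw [hR w hw1, ← mellin_axis ha one_pos hw2, hstrong.Λ_eq]
    subst hP
    exact congrArg (fun g : ℝ → ℂ => mellin g w) (funext fun t => by simp [fePair, axis, h0])
  rw [heq]
  have := hstrong.hasMellin s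
  subst hP
  exact this

/-- **Periods of monomials are critical values.** -/
theorem per_X_pow {E : ℂ → ℂ} (hE : IsContinuation a E) (ha : Growth a K σ) (h0 : a 0 = 0)
    (h : Transforms 1 ((n + 2 : ℕ) : ℝ) (I ^ (n + 2)) a a) {j : ℕ} (hj : j ≤ n) :
    per a n (Polynomial.X ^ j) = -(I ^ (j + 1) * E (j + 1)) := by
  have hS := slash_of_transforms h
  have hP : (Polynomial.X ^ j : ℂ[X]).natDegree ≤ n := by rwa [Polynomial.natDegree_X_pow]
  obtain ⟨g, hg⟩ : ∃ g : ℝ → ℂ, g = fun y : ℝ => if y ≤ 0 then per a n (Polynomial.X ^ j) else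
    prim a n (Polynomial.X ^ j) (I * y) := ⟨_, rfl⟩
  obtain ⟨hconv, hval⟩ := hE.hasMellin ha h0 h ((j : ℂ) + 1)
  obtain ⟨d, hd⟩ : ∃ d : ℝ → ℂ, d = fun y : ℝ =>
      I ^ (j + 1) * ((y : ℂ) ^ (((j : ℂ) + 1) - 1) • qSum 1 a (I * y)) := ⟨_, rfl⟩
  have hint : IntegrableOn d (Ioi 0) := hd ▸ Integrable.const_mul hconv _
  have hcont : ContinuousWithinAt g (Ici 0) 0 := by
    rw [← continuousWithinAt_Ioi_iff_Ici, ContinuousWithinAt, hg]
    dsimp only
    rw [if_pos le_rfl]
    exact (tendsto_prim_zero ha h0 hS hP).congr'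
      (eventually_nhdsWithin_of_forall fun y (hy : 0 < y) => (if_neg hy.not_ge).symm)
  have hder : ∀ y ∈ Ioi (0 : ℝ), HasDerivAt g (d y) y := fun y (hy : 0 < y) => by
    have h1 := (hasDerivAt_prim ha h0 hP (show 0 < (I * (y : ℂ)).im by simpa using hy)).comp
      (y : ℂ) ((hasDerivAt_id (y : ℂ)).const_mul I)
    refine (h1.comp_ofReal.congr_deriv ?_).congr_of_eventuallyEq ?_
    · simp only [hd, add_sub_cancel_right, smul_eq_mul, cpow_natCast, Polynomial.eval_pow,
        Polynomial.eval_X]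
      ring
    · filter_upwards [Ioi_mem_nhds hy] with u (hu : 0 < u)
      simp [hg, hu.not_ge]
  have htop : Tendsto g atTop (𝓝 0) := by
    refine (tendsto_prim_vertical (n := n) ha (Polynomial.X ^ j) 0).congr' ?_
    filter_upwards [eventually_gt_atTop 0] with y hy
    simp [hg, hy.not_ge, mul_comm]
  have hI := integral_Ioi_of_hasDerivAt_of_tendsto hcont hder hint htop
  rw [hd, integral_const_mul] at hI
  have hm : (∫ y : ℝ in Ioi 0, (y : ℂ) ^ (((j : ℂ) + 1) - 1) • qSum 1 a (I * y)) = E (j + 1) := hval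
  have hg0 : g 0 = per a n (Polynomial.X ^ j) := by rw [hg]; exact if_pos le_rfl
  rw [hm, hg0, zero_sub] at hI
  linear_combination hI

/-- A period as a combination of critical values. -/
theorem per_eq_values {E : ℂ → ℂ} (hE : IsContinuation a E) (ha : Growth a K σ) (h0 : a 0 = 0)
    (h : Transforms 1 ((n + 2 : ℕ) : ℝ) (I ^ (n + 2)) a a) {P : ℂ[X]} (hP : P.natDegree ≤ n) :
    per a n P = -∑ j ∈ Finset.range (n + 1), P.coeff j * I ^ (j + 1) * E (j + 1) := by
  rw [per_eq_sum hP, ← Finset.sum_neg_distrib]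
  exact Finset.sum_congr rfl fun j hj => by
    rw [per_X_pow hE ha h0 h (Nat.lt_succ_iff.1 (Finset.mem_range.1 hj))]; ring

end FA.PeriodPolynomial

end
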