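import Fermat.Agent.Tau.Mordell
import Fermat.Agent.Tau.ReduciblePrimes
import Fermat.Agent.PeriodPolynomial.Values

/-!
# The periods of `Δ`

The relations of Eichler and Shimura fix the ratios of the critical values of each parity up to
`Λ(1) : Λ(3)`, which the Hecke relation at `2` gives: `691 Λ(1) = 1620 Λ(3)`.
-/

set_option autoImplicit false

noncomputable section

namespace FA.PeriodPolynomial

open Complex Filter Topology Set MeasureTheory FA.HeckeConverse
open UpperHalfPlane hiding I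
open scoped Real Polynomial MatrixGroups

/-- Ramanujan's `τ`, as complex numbers. -/
def tauC (m : ℕ) : ℂ := (qExpansion 1 ModularForm.discriminant).coeff m

/-- `Δ` as a modular form of weight `10 + 2`. -/
def deltaMF : ModularForm 𝒮ℒ ((10 + 2 : ℕ) : ℤ) where
  toFun := ModularForm.discriminant
  slash_action_eq' := CuspForm.discriminant.slash_action_eq'
  holo' := CuspForm.discriminant.holo'
  bdd_at_cusps' := fun hc γ hγ =>
    (CuspForm.discriminant.zero_at_cusps' hc γ hγ).boundedAtFilter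

theorem growth_tauC : ∃ K, Growth tauC K (10 + 2) := growth_coeff (by norm_num) deltaMF

theorem transforms_tauC :
    Transforms 1 ((10 + 2 : ℕ) : ℝ) (I ^ (10 + 2)) tauC tauC :=
  transforms_coeff (by norm_num) deltaMF

theorem tauC_zero : tauC 0 = 0 := by
  rw [tauC, FA.Tau.qExpansion_discriminant, FA.Tau.coeff_deltaInt_zero, Int.cast_zero]

theorem tauC_hecke_two (m : ℕ) :
    tauC (2 * m) + (if 2 ∣ m then 2048 * tauC (m / 2) else 0) = -24 * tauC m := by
  have h := FA.Tau.coeff_hecke Nat.prime_two m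
  rw [FA.SwinnertonDyer.tau_two, mul_comm m 2] at h
  have h' := congrArg (Int.cast : ℤ → ℂ) h
  simp only [Int.cast_add, Int.cast_mul, apply_ite (Int.cast : ℤ → ℂ), Int.cast_pow, Int.cast_zero,
    Int.cast_natCast, Int.cast_neg, Int.cast_ofNat, ← FA.Tau.qExpansion_discriminant] at h'
  rw [tauC, tauC, tauC, ← h']
  norm_num

theorem prim_one (z : ℂ) : prim tauC 10 1 z = eFun tauC 0 z := by
  rw [prim, Finset.sum_eq_single 0]
  · simp
  · intro i _ hi
    rw [Polynomial.iterate_derivative_eq_zero (by simpa using Nat.pos_of_ne_zero hi)]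
    simp
  · simp

/-- The Hecke relation at `2` for the primitive. -/
theorem eFun_hecke {z : ℂ} (hz : 0 < z.im) :
    -24 * eFun tauC 0 z =
      1024 * eFun tauC 0 (2 * z) + eFun tauC 0 (z / 2) + eFun tauC 0 ((z + 1) / 2) := by
  obtain ⟨K, hK⟩ := growth_tauC
  have hb := growth_eCoef hK 0
  have hsum : ∀ w : ℂ, 0 < w.im → HasSum
      (fun m => eCoef tauC 0 m * Function.Periodic.qParam 1 w ^ m) (eFun tauC 0 w) :=
    fun w hw => hasSum_qSum hb one_pos hw
  obtain ⟨q, hq⟩ : ∃ q, q = Function.Periodic.qParam 1 z := ⟨_, rfl⟩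
  obtain ⟨h, hh⟩ : ∃ h, h = Function.Periodic.qParam 1 (z / 2) := ⟨_, rfl⟩
  have h2 : h ^ 2 = q := by
    rw [hh, hq, Function.Periodic.qParam, Function.Periodic.qParam, ← Complex.exp_nat_mul]
    push_cast
    ring_nf
  have hneg : Function.Periodic.qParam 1 ((z + 1) / 2) = -h := by
    rw [hh, Function.Periodic.qParam, Function.Periodic.qParam, ofReal_one, div_one, div_one,
      show 2 * (π : ℂ) * I * ((z + 1) / 2) = 2 * π * I * (z / 2) + π * I by ring, Complex.exp_add,
      Complex.exp_pi_mul_I]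
    ring
  have hdbl : Function.Periodic.qParam 1 (2 * z) = q ^ 2 := by
    rw [hq, Function.Periodic.qParam, Function.Periodic.qParam, ← Complex.exp_nat_mul]
    push_cast
    ring_nf
  have hS1 : HasSum (fun l => 2 * eCoef tauC 0 (2 * l) * q ^ l)
      (eFun tauC 0 (z / 2) + eFun tauC 0 ((z + 1) / 2)) := by
    have hi : Function.Injective fun l : ℕ => 2 * l := fun x y e => by simpa using e
    have e := (hsum (z / 2) (by simpa using hz)).add (hsum ((z + 1) / 2) (by simpa using hz))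
    rw [← hh, hneg] at e
    rw [← hi.hasSum_iff] at e
    · refine e.congr_fun fun l => ?_
      simp only [Function.comp_apply]
      rw [pow_mul, pow_mul, neg_sq, h2]
      ring
    · intro m hm
      have hodd : Odd m := by
        rw [← Nat.not_even_iff_odd]
        rintro ⟨l, rfl⟩
        exact hm ⟨l, by simp only; ring⟩
      rw [hodd.neg_pow]
      ring
  have hS2 : HasSum (fun l => (if 2 ∣ l then eCoef tauC 0 (l / 2) else 0) * q ^ l)
      (eFun tauC 0 (2 * z)) := by
    have hi : Function.Injective fun l : ℕ => 2 * l := fun x y e => by simpa using e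
    rw [← hi.hasSum_iff]
    · refine (hsum (2 * z) (by simpa using hz)).congr_fun fun l => ?_
      simp only [Function.comp_apply]
      rw [hdbl, if_pos (dvd_mul_right 2 l), Nat.mul_div_cancel_left l two_pos, pow_mul]
    · intro m hm
      rw [if_neg fun hd => hm ⟨m / 2, Nat.mul_div_cancel' hd⟩, zero_mul]
  refine ((hsum z hz).mul_left (-24)).unique ?_
  rw [add_assoc]
  refine ((hS2.mul_left 1024).add hS1).congr_fun fun l => ?_
  rw [← hq, ← mul_assoc (1024 : ℂ), ← add_mul, ← mul_assoc]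
  congr 1
  rcases eq_or_ne l 0 with rfl | hl
  · simp [eCoef_zero]
  have hl' : (l : ℂ) ≠ 0 := Nat.cast_ne_zero.2 hl
  simp only [eCoef, zero_add, pow_one]
  rw [← mul_div_assoc (-24 : ℂ), ← tauC_hecke_two l]
  by_cases hd : 2 ∣ l
  · rw [if_pos hd, if_pos hd]
    obtain ⟨m, rfl⟩ := hd
    rw [Nat.mul_div_cancel_left m two_pos]
    push_cast at hl' ⊢
    have hm : (m : ℂ) ≠ 0 := right_ne_zero_of_mul hl'
    field_simp
    ring
  · rw [if_neg hd, if_neg hd, add_zero, mul_zero, zero_add]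
    push_cast
    field_simp

/-- The limit of the primitive at `1/2`. -/
theorem tendsto_eFun_half :
    Tendsto (fun y : ℝ => eFun tauC 0 ((I * y + 1) / 2)) (𝓝[>] 0)
      (𝓝 (per tauC 10 1 +
        per tauC 10 ((Polynomial.X + Polynomial.C (-2)) ^ 10 * Polynomial.X ^ 0))) := by
  obtain ⟨K, hK⟩ := growth_tauC
  have hS := slash_of_transforms transforms_tauC
  set Q : ℂ[X] := (Polynomial.X + Polynomial.C (-2)) ^ 10 * Polynomial.X ^ 0
  have hQ : Q.natDegree ≤ 10 := by
    simp only [Q, pow_zero, mul_one]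
    exact Polynomial.natDegree_pow_le_of_le 10 (le_of_eq (Polynomial.natDegree_X_add_C _))
  have hflip : flip 10 (1 : ℂ[X]) = Polynomial.X ^ 10 := by
    rw [flip, Finset.sum_eq_single 0]
    · simp
    · intro j _ hj
      simp [Polynomial.coeff_one, hj]
    · simp
  have hcomp : (Q.comp (Polynomial.X + 1)).comp (Polynomial.X + 1) = Polynomial.X ^ 10 := by
    simp only [Q, pow_zero, mul_one, Polynomial.pow_comp, Polynomial.add_comp, Polynomial.X_comp,
      Polynomial.C_comp, Polynomial.one_comp]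
    congr 1
    rw [map_neg, show (Polynomial.C (2 : ℂ)) = 2 from Polynomial.C_ofNat 2]
    ring
  have h := ((tendsto_prim_vertical (n := 10) hK (flip 10 Q) (-1 / 2)).comp
    (tendsto_inv_nhdsGT_zero.atTop_mul_const (show (0 : ℝ) < 1 / 2 by norm_num))).const_add
    (per tauC 10 1 + per tauC 10 Q)
  rw [add_zero] at h
  refine h.congr' (eventually_nhdsWithin_of_forall fun y (hy : 0 < y) => ?_)
  simp only [Function.comp_apply]
  have hy' : (y : ℂ) ≠ 0 := ofReal_ne_zero.2 hy.ne'
  obtain ⟨u, hu⟩ : ∃ u : ℂ, u = ((-1 / 2 : ℝ) : ℂ) + ((y⁻¹ * (1 / 2) : ℝ) : ℂ) * I := ⟨_, rfl⟩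
  have huim : 0 < u.im := by
    rw [hu]
    simp
    positivity
  have hu0 : u ≠ 0 := fun e => by simp [e] at huim
  obtain ⟨v, hv⟩ : ∃ v : ℂ, v = -1 / u - 2 := ⟨_, rfl⟩
  have hvim : 0 < v.im := by
    rw [hv]
    simp [Complex.div_im]
    exact div_neg_of_neg_of_pos (neg_lt_zero.2 huim) (Complex.normSq_pos.2 hu0)
  have hv0 : v ≠ 0 := fun e => by simp [e] at hvim
  have hpt : (I * (y : ℂ) + 1) / 2 = -1 / v := by
    rw [eq_div_iff hv0, hv]
    have hu' : 2 * (y : ℂ) * u = I - y := by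
      rw [hu]
      push_cast
      field_simp
      ring
    field_simp
    linear_combination (-I) * hu' - I_sq
  rw [← hu, hpt, ← prim_one, prim_neg_one_div hK tauC_zero hS (by simp) hvim, hflip, ← hcomp,
    ← prim_add_one, ← prim_add_one, show v + 1 + 1 = -1 / u by rw [hv]; ring,
    prim_neg_one_div hK tauC_zero hS hQ huim]
  ring

/-- `per ((X + r)^m X^l)` by the binomial theorem. -/
theorem per_binomial {a : ℕ → ℂ} {n : ℕ} (r : ℂ) (m l : ℕ) :
    per a n ((Polynomial.X + Polynomial.C r) ^ m * Polynomial.X ^ l) =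
      ∑ i ∈ Finset.range (m + 1),
        r ^ (m - i) * (m.choose i : ℂ) * per a n (Polynomial.X ^ (i + l)) := by
  rw [add_pow, Finset.sum_mul, ← per_sum]
  refine congrArg _ (Finset.sum_congr rfl fun i _ => ?_)
  rw [map_mul, map_pow, map_natCast, pow_add]
  ring

theorem flip_X_pow {n j : ℕ} (hj : j ≤ n) :
    flip n (Polynomial.X ^ j : ℂ[X]) = Polynomial.C ((-1) ^ j) * Polynomial.X ^ (n - j) := by
  rw [flip, Finset.sum_eq_single j]
  · simp
  · intro i _ hi
    simp [Polynomial.coeff_X_pow, hi]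
  · simp [hj]

theorem uOp_X_pow {n j : ℕ} (hj : j ≤ n) : uOp n (Polynomial.X ^ j : ℂ[X]) =
    Polynomial.C ((-1) ^ j) * ((Polynomial.X + Polynomial.C 1) ^ (n - j) * Polynomial.X ^ 0) := by
  simp [uOp, flip_X_pow hj]

theorem uOp_uOp_X_pow {n j : ℕ} (hj : j ≤ n) :
    uOp n (uOp n (Polynomial.X ^ j : ℂ[X])) = Polynomial.C ((-1) ^ j) *
      ((Polynomial.X + Polynomial.C 1) ^ j * Polynomial.X ^ (n - j)) := by
  refine Polynomial.eq_of_infinite_eval_eq _ _ (Set.Infinite.mono (s := ({0, -1} : Set ℂ)ᶜ)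
    (fun z hz => ?_) (Set.toFinite ({0, -1} : Set ℂ)).infinite_compl)
  simp only [mem_compl_iff, mem_insert_iff, mem_singleton_iff, not_or] at hz
  obtain ⟨hz0, hz1⟩ := hz
  have h1 : z + 1 ≠ 0 := fun h => hz1 (eq_neg_of_add_eq_zero_left h)
  have e1 : -1 / (z + 1) + 1 = z / (z + 1) := by
    field_simp
    ring
  have h2 : -1 / (z + 1) + 1 ≠ 0 := by rw [e1]; exact div_ne_zero hz0 h1
  have hP : (Polynomial.X ^ j : ℂ[X]).natDegree ≤ n := by rwa [Polynomial.natDegree_X_pow]
  show (uOp n (uOp n (Polynomial.X ^ j : ℂ[X]))).eval z = _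
  rw [eval_uOp (natDegree_uOp_le n _) h1, eval_uOp hP h2, e1, ← mul_assoc, ← mul_pow,
    show (z + 1) * (z / (z + 1)) = z by field_simp]
  simp only [Polynomial.eval_pow, Polynomial.eval_X, Polynomial.eval_mul, Polynomial.eval_C,
    Polynomial.eval_add]
  rw [div_pow, div_pow, ← pow_sub_mul_pow z hj]
  field_simp

/-- **Manin's ratios.** -/
theorem delta_values {E : ℂ → ℂ} (hE : IsContinuation tauC E) :
    (691 * E 1 = 1620 * E 3 ∧ 9 * E 3 = 14 * E 5) ∧
      (5 * E 2 = 12 * E 6 ∧ 4 * E 4 = 5 * E 6) := by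
  obtain ⟨K, hK⟩ := growth_tauC
  have h0 := tauC_zero
  have hT := transforms_tauC
  have hS := slash_of_transforms hT
  have hn : Even 10 := by decide
  have hp : ∀ j : ℕ, j ≤ 10 → per tauC 10 (Polynomial.X ^ j) = -(I ^ (j + 1) * E (j + 1)) :=
    fun j hj => per_X_pow hE hK h0 hT hj
  have hsym : ∀ j : ℕ, j ≤ 10 → per tauC 10 (Polynomial.X ^ j) +
      (-1) ^ j * per tauC 10 (Polynomial.X ^ (10 - j)) = 0 := fun j hj => by
    rw [← per_C_mul, ← flip_X_pow hj]
    exact per_flip hn (by rwa [Polynomial.natDegree_X_pow])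
  have hU : ∀ j : ℕ, j ≤ 10 → per tauC 10 (Polynomial.X ^ j) + (-1) ^ j *
      (∑ i ∈ Finset.range (10 - j + 1),
          ((10 - j).choose i : ℂ) * per tauC 10 (Polynomial.X ^ i) +
        ∑ i ∈ Finset.range (j + 1),
          (j.choose i : ℂ) * per tauC 10 (Polynomial.X ^ (i + (10 - j)))) = 0 := fun j hj => by
    have h := per_uOp hn hK h0 hS (P := Polynomial.X ^ j) (by rwa [Polynomial.natDegree_X_pow])
    rw [uOp_uOp_X_pow hj, uOp_X_pow hj, per_C_mul, per_C_mul, per_binomial, per_binomial] at h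
    simp only [one_pow, one_mul, add_zero] at h
    linear_combination h
  -- the Hecke relation in the limit
  have hQ : -24 * per tauC 10 1 = 1024 * per tauC 10 1 + per tauC 10 1 + (per tauC 10 1 +
      per tauC 10 ((Polynomial.X + Polynomial.C (-2)) ^ 10 * Polynomial.X ^ 0)) := by
    have hlim := tendsto_prim_zero hK h0 hS (P := (1 : ℂ[X])) (by simp)
    simp only [prim_one] at hlim
    have hscale : ∀ c : ℝ, 0 < c → Tendsto (fun y : ℝ => c * y) (𝓝[>] 0) (𝓝[>] 0) := fun c hc => by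
      refine tendsto_nhdsWithin_iff.2 ⟨?_, eventually_nhdsWithin_of_forall fun y (hy : 0 < y) =>
        mul_pos hc hy⟩
      have := (continuous_const_mul c).tendsto (0 : ℝ)
      rw [mul_zero] at this
      exact this.mono_left nhdsWithin_le_nhds
    refine tendsto_nhds_unique (hlim.const_mul (-24 : ℂ)) ?_
    refine ((((hlim.comp (hscale 2 two_pos)).const_mul (1024 : ℂ)).add
      (hlim.comp (hscale (1 / 2) (by norm_num)))).add tendsto_eFun_half).congr'
      (eventually_nhdsWithin_of_forall fun y (hy : 0 < y) => ?_)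
    simp only [Function.comp_apply]
    rw [eFun_hecke (show 0 < (I * (y : ℂ)).im by simpa using hy)]
    push_cast
    ring_nf
  rw [per_binomial] at hQ
  have u2 := hU 2 (by norm_num)
  have u5 := hU 5 (by norm_num)
  have u8 := hU 8 (by norm_num)
  have s0 := hsym 0 (by norm_num)
  have s1 := hsym 1 (by norm_num)
  have s2 := hsym 2 (by norm_num)
  have s3 := hsym 3 (by norm_num)
  have s4 := hsym 4 (by norm_num)
  rw [show (1 : ℂ[X]) = Polynomial.X ^ 0 from (pow_zero _).symm] at hQ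
  obtain ⟨P, hP⟩ : ∃ P : ℕ → ℂ, P = fun j => per tauC 10 (Polynomial.X ^ j) := ⟨_, rfl⟩
  have hPj : ∀ j, per tauC 10 (Polynomial.X ^ j) = P j := fun j => by rw [hP]
  simp only [Nat.reduceSub, Nat.reduceAdd, Finset.sum_range_succ, Finset.sum_range_zero,
    zero_add, add_zero, hPj] at u2 u5 u8 s0 s1 s2 s3 s4 hQ
  norm_num [Nat.choose] at u2 u5 u8 s0 s1 s2 s3 s4 hQ
  have t1 : 691 * P 0 + 1620 * P 2 = 0 := by
    linear_combination (-565 / 33) * u2 + (2075 / 33) * u8 - (4144 / 33) * u5 - (1 / 3) * hQ -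
      (515 / 3) * s0 + 1090 * s1 - 3105 * s2 + 4320 * s3 - 5670 * s4
  have t2 : 9 * P 2 + 14 * P 4 = 0 := by
    linear_combination (1 / 6) * u2 - (1 / 6) * u8 - s1 + (9 / 2) * s2 - 8 * s3 + 7 * s4
  have t3 : 5 * P 1 - 12 * P 5 = 0 := by
    linear_combination (-5 / 44) * u2 - (5 / 44) * u8 - (8 / 11) * u5 - (1 / 2) * s0 +
      (5 / 2) * s1 -
      (15 / 4) * s2 + (15 / 2) * s4
  have t4 : -4 * P 3 - 5 * P 5 = 0 := by
    linear_combination (-1 / 22) * u2 - (1 / 22) * u8 - (1 / 11) * u5 + (1 / 2) * s2 - 2 * s3 +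
      4 * s4
  have v : ∀ j : ℕ, j ≤ 10 → P j = -(I ^ (j + 1) * E (j + 1)) := fun j hj => by
    rw [← hPj, hp j hj]
  simp only [v 0 (by norm_num), v 1 (by norm_num), v 2 (by norm_num), v 3 (by norm_num),
    v 4 (by norm_num), v 5 (by norm_num)] at t1 t2 t3 t4
  norm_num [pow_succ, I_mul_I] at t1 t2 t3 t4
  refine ⟨⟨?_, ?_⟩, ⟨?_, ?_⟩⟩
  · exact mul_left_cancel₀ I_ne_zero (by linear_combination -t1)
  · exact mul_left_cancel₀ I_ne_zero (by linear_combination t2)
  · linear_combination t3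
  · linear_combination t4

end FA.PeriodPolynomial

end
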