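import Fermat.Agent.HeckeConverse.Forward

/-!
# Eichler integrals as `q`-series

`prim a n P` is a primitive of `P f`, where `f = ∑ a m qᵐ` with `a 0 = 0` and `deg P ≤ n`, and it
tends to `0` along vertical lines upwards.
-/

set_option autoImplicit false

noncomputable section

namespace FA.PeriodPolynomial

open Complex Filter Topology Set FA.HeckeConverse
open scoped Real Polynomial

variable {a : ℕ → ℂ} {K : ℝ} {σ n : ℕ}

/-- The coefficients of the `(i + 1)`-fold integral. -/
def eCoef (a : ℕ → ℂ) (i m : ℕ) : ℂ := a m / (2 * π * I * m) ^ (i + 1)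

/-- The `(i + 1)`-fold integral. -/
def eFun (a : ℕ → ℂ) (i : ℕ) (z : ℂ) : ℂ := qSum 1 (eCoef a i) z

/-- The primitive of `P f`. -/
def prim (a : ℕ → ℂ) (n : ℕ) (P : ℂ[X]) (z : ℂ) : ℂ :=
  ∑ i ∈ Finset.range (n + 1), (-1) ^ i * (Polynomial.derivative^[i] P).eval z * eFun a i z

theorem eCoef_zero (a : ℕ → ℂ) (i : ℕ) : eCoef a i 0 = 0 := by simp [eCoef]

theorem growth_eCoef (ha : Growth a K σ) (i : ℕ) : Growth (eCoef a i) K σ := fun m hm => by
  refine le_trans ?_ (ha m hm)
  rw [eCoef, norm_div, norm_pow]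
  refine div_le_self (norm_nonneg _) (one_le_pow₀ ?_)
  have h1 : (1 : ℝ) ≤ m := by exact_mod_cast Nat.pos_of_ne_zero hm
  simp only [norm_mul, norm_ofNat, Complex.norm_I, mul_one, Complex.norm_real, Complex.norm_natCast,
    Real.norm_of_nonneg Real.pi_pos.le]
  nlinarith [Real.pi_gt_three]

/-- A `q`-series may be differentiated term by term. -/
theorem hasDerivAt_qSum (ha : Growth a K σ) {z : ℂ} (hz : 0 < z.im) :
    HasDerivAt (qSum 1 a) (qSum 1 (fun m => 2 * π * I * m * a m) z) z := by
  have ho : IsOpen {w : ℂ | z.im / 2 < w.im} := isOpen_lt continuous_const Complex.continuous_im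
  have hzm : z ∈ {w : ℂ | z.im / 2 < w.im} := show z.im / 2 < z.im by linarith
  have hle : ∀ (m : ℕ) (w : ℂ), w ∈ {w : ℂ | z.im / 2 < w.im} →
      ‖a m * Function.Periodic.qParam 1 w ^ m‖ ≤ ‖a m‖ * Real.exp (-(2 * π * (z.im / 2) * m)) :=
    fun m w hw => by
    rw [norm_mul, norm_qParam_pow, div_one]
    refine mul_le_mul_of_nonneg_left (Real.exp_le_exp.2 (neg_le_neg ?_)) (norm_nonneg _)
    have : z.im / 2 ≤ w.im := le_of_lt hw
    gcongr
  have hterm : ∀ (m : ℕ) (w : ℂ), HasDerivAt (fun w => a m * Function.Periodic.qParam 1 w ^ m)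
      (2 * π * I * m * a m * Function.Periodic.qParam 1 w ^ m) w := fun m w => by
    have e : (fun w => a m * Function.Periodic.qParam 1 w ^ m) =
        fun w => a m * Complex.exp (2 * π * I * m * w) := funext fun w => by
      rw [Function.Periodic.qParam, ← Complex.exp_nat_mul, ofReal_one, div_one]
      ring_nf
    rw [e]
    refine (((hasDerivAt_id w).const_mul _).cexp.const_mul (a m)).congr_deriv ?_
    rw [Function.Periodic.qParam, ← Complex.exp_nat_mul, ofReal_one, div_one, id_eq]
    ring_nf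
  have hs := hasSum_deriv_of_summable_norm (z := z) (summable_norm_coeff ha (by positivity))
    (fun m => fun w _ => (hterm m w).differentiableAt.differentiableWithinAt) ho hle hzm
  have hd : DifferentiableAt ℂ (qSum 1 a) z := (differentiableOn_qSum ha one_pos).differentiableAt
    ((isOpen_lt continuous_const Complex.continuous_im).mem_nhds hz)
  refine hd.hasDerivAt.congr_deriv ?_
  have hs' : deriv (qSum 1 a) z = deriv (fun w => ∑' m, a m * Function.Periodic.qParam 1 w ^ m) z :=
    rfl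
  rw [hs', ← hs.tsum_eq, qSum]
  exact tsum_congr fun m => (hterm m z).deriv

theorem hasDerivAt_eFun_zero (ha : Growth a K σ) (h0 : a 0 = 0) {z : ℂ} (hz : 0 < z.im) :
    HasDerivAt (eFun a 0) (qSum 1 a z) z := by
  refine (hasDerivAt_qSum (growth_eCoef ha 0) hz).congr_deriv ?_
  refine congrArg (fun c => qSum 1 c z) (funext fun m => ?_)
  rcases eq_or_ne m 0 with rfl | hm
  · simp [h0]
  · have h1 : (2 * π * I * m : ℂ) ≠ 0 :=
      mul_ne_zero two_pi_I_ne_zero (Nat.cast_ne_zero.2 hm)
    rw [eCoef, zero_add, pow_one, mul_div_cancel₀ _ h1]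

theorem hasDerivAt_eFun_succ (ha : Growth a K σ) (i : ℕ) {z : ℂ} (hz : 0 < z.im) :
    HasDerivAt (eFun a (i + 1)) (eFun a i z) z := by
  refine (hasDerivAt_qSum (growth_eCoef ha (i + 1)) hz).congr_deriv ?_
  refine congrArg (fun c => qSum 1 c z) (funext fun m => ?_)
  rcases eq_or_ne m 0 with rfl | hm
  · simp [eCoef]
  · have h1 : (2 * π * I * m : ℂ) ≠ 0 :=
      mul_ne_zero two_pi_I_ne_zero (Nat.cast_ne_zero.2 hm)
    rw [eCoef, eCoef, pow_succ _ (i + 1), ← div_div, mul_div_cancel₀ _ h1]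

/-- **`prim a n P` is a primitive of `P f`.** -/
theorem hasDerivAt_prim (ha : Growth a K σ) (h0 : a 0 = 0) {P : ℂ[X]} (hP : P.natDegree ≤ n)
    {z : ℂ} (hz : 0 < z.im) :
    HasDerivAt (prim a n P) (P.eval z * qSum 1 a z) z := by
  have key : ∀ N : ℕ, HasDerivAt
      (fun w => ∑ i ∈ Finset.range (N + 1),
        (-1) ^ i * (Polynomial.derivative^[i] P).eval w * eFun a i w)
      (P.eval z * qSum 1 a z +
        (-1) ^ N * (Polynomial.derivative^[N + 1] P).eval z * eFun a N z) z := by
    intro N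
    induction N with
    | zero =>
      simp only [zero_add, Finset.sum_range_one, pow_zero, one_mul, Function.iterate_zero_apply,
        Function.iterate_one]
      exact ((P.hasDerivAt z).mul (hasDerivAt_eFun_zero ha h0 hz)).congr_deriv (by ring)
    | succ N ih =>
      simp only [Finset.sum_range_succ _ (N + 1)]
      refine (ih.add ((((Polynomial.derivative^[N + 1] P).hasDerivAt z).const_mul
        ((-1 : ℂ) ^ (N + 1))).mul (hasDerivAt_eFun_succ ha N hz))).congr_deriv ?_
      simp only [Function.iterate_succ_apply' _ (N + 1)]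
      ring
  have h := key n
  rw [Polynomial.iterate_derivative_eq_zero (by omega), Polynomial.eval_zero, mul_zero, zero_mul,
    add_zero] at h
  exact h

theorem prim_add (P Q : ℂ[X]) (z : ℂ) : prim a n (P + Q) z = prim a n P z + prim a n Q z := by
  simp only [prim, iterate_map_add, Polynomial.eval_add, ← Finset.sum_add_distrib]
  exact Finset.sum_congr rfl fun i _ => by ring

theorem prim_C_mul (c : ℂ) (P : ℂ[X]) (z : ℂ) :
    prim a n (Polynomial.C c * P) z = c * prim a n P z := by
  simp only [prim, Polynomial.iterate_derivative_C_mul, Polynomial.eval_mul, Polynomial.eval_C,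
    Finset.mul_sum]
  exact Finset.sum_congr rfl fun i _ => by ring

theorem prim_add_one (P : ℂ[X]) (z : ℂ) :
    prim a n P (z + 1) = prim a n (P.comp (Polynomial.X + 1)) z := by
  have hq : ∀ c : ℕ → ℂ, qSum 1 c (z + 1) = qSum 1 c z := fun c => by
    have h : Function.Periodic.qParam 1 (z + 1) = Function.Periodic.qParam 1 z := by
      simp [Function.Periodic.qParam, mul_add, Complex.exp_add, Complex.exp_two_pi_mul_I]
    simp [qSum, h]
  have hd : ∀ i : ℕ, Polynomial.derivative^[i] (P.comp (Polynomial.X + 1)) =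
      (Polynomial.derivative^[i] P).comp (Polynomial.X + 1) := fun i => by
    induction i with
    | zero => rfl
    | succ i ih =>
      rw [Function.iterate_succ_apply', ih, Function.iterate_succ_apply',
        Polynomial.derivative_comp]
      simp
  simp [prim, hd, eFun, hq]

theorem norm_eFun_le (ha : Growth a K σ) (i : ℕ) :
    ∃ M : ℝ, ∀ z : ℂ, 1 ≤ z.im → ‖eFun a i z‖ ≤ M * Real.exp (-(2 * π) * z.im) := by
  have hg := growth_eCoef ha i
  have hs := summable_norm_coeff hg (show (0 : ℝ) < 2 * π by positivity)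
  refine ⟨Real.exp (2 * π) * ∑' m, ‖eCoef a i m‖ * Real.exp (-(2 * π * m)), fun z hz => ?_⟩
  rw [eFun, qSum]
  refine (tsum_of_norm_bounded
    (hs.hasSum.mul_left (Real.exp (2 * π) * Real.exp (-(2 * π) * z.im))) fun m => ?_).trans
      (le_of_eq (by ring))
  rcases eq_or_ne m 0 with rfl | hm
  · simp [eCoef_zero]
  rw [norm_mul, norm_qParam_pow, div_one, mul_left_comm (Real.exp (2 * π) * _)]
  refine mul_le_mul_of_nonneg_left ?_ (norm_nonneg _)
  rw [← Real.exp_add, ← Real.exp_add, Real.exp_le_exp]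
  have h1 : (1 : ℝ) ≤ m := by exact_mod_cast Nat.pos_of_ne_zero hm
  nlinarith [mul_nonneg (mul_nonneg Real.two_pi_pos.le (sub_nonneg.2 h1)) (sub_nonneg.2 hz)]

/-- The primitive vanishes at `i∞`. -/
theorem tendsto_prim_vertical (ha : Growth a K σ) (P : ℂ[X]) (x : ℝ) :
    Tendsto (fun y : ℝ => prim a n P (x + y * I)) atTop (𝓝 0) := by
  have hrw : ∀ y : ℝ, prim a n P (x + y * I) = ∑ i ∈ Finset.range (n + 1),
      (-1) ^ i * (Polynomial.derivative^[i] P).eval (x + y * I) * eFun a i (x + y * I) := fun _ =>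
    rfl
  simp only [hrw]
  rw [show (0 : ℂ) = ∑ _i ∈ Finset.range (n + 1), (0 : ℂ) by simp]
  refine tendsto_finsetSum _ fun i _ => ?_
  obtain ⟨Q, hQ⟩ : ∃ Q, Q = Polynomial.derivative^[i] P := ⟨_, rfl⟩
  obtain ⟨M, hM⟩ := norm_eFun_le ha i
  rw [← hQ]
  have hlim : Tendsto (fun y : ℝ => ∑ j ∈ Finset.range (Q.natDegree + 1),
      ‖Q.coeff j‖ * ((|x| + 1) ^ j * ((y ^ j * Real.exp (-(2 * π) * y)) * M))) atTop (𝓝 0) := by
    rw [show (0 : ℝ) = ∑ _j ∈ Finset.range (Q.natDegree + 1), (0 : ℝ) by simp]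
    refine tendsto_finsetSum _ fun j _ => ?_
    have h := (isLittleO_pow_exp_pos_mul_atTop j (show (0 : ℝ) < 2 * π by positivity))
      |>.tendsto_div_nhds_zero
    have h' : Tendsto (fun y : ℝ => y ^ j * Real.exp (-(2 * π) * y)) atTop (𝓝 0) := by
      refine h.congr fun y => ?_
      rw [div_eq_mul_inv, ← Real.exp_neg]
      ring_nf
    simpa using ((h'.mul_const M).const_mul ((|x| + 1) ^ j)).const_mul ‖Q.coeff j‖
  refine squeeze_zero_norm' ((eventually_ge_atTop 1).mono fun y hy => ?_) hlim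
  have him : ((x : ℂ) + y * I).im = y := by simp
  have hnorm : ‖(x : ℂ) + y * I‖ ≤ (|x| + 1) * y := by
    refine (norm_le_abs_re_add_abs_im _).trans ?_
    simp only [him, add_re, ofReal_re, mul_re, I_re, mul_zero, ofReal_im, I_im, zero_mul, sub_self,
      add_zero, abs_of_nonneg (zero_le_one.trans hy)]
    nlinarith [abs_nonneg x]
  have hE := hM ((x : ℂ) + y * I) (by rw [him]; exact hy)
  rw [him] at hE
  have hM0 : 0 ≤ M := nonneg_of_mul_nonneg_left ((norm_nonneg _).trans hE) (Real.exp_pos _)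
  rw [norm_mul, norm_mul, norm_pow, norm_neg, norm_one, one_pow, one_mul,
    Polynomial.eval_eq_sum_range]
  refine (mul_le_mul ((norm_sum_le _ _).trans (Finset.sum_le_sum fun j _ => ?_)) hE (norm_nonneg _)
    (Finset.sum_nonneg fun j _ =>
      mul_nonneg (norm_nonneg (Q.coeff j))
        (pow_nonneg (by positivity : 0 ≤ (|x| + 1) * y) j))).trans
      (le_of_eq ?_)
  · rw [norm_mul, norm_pow]
    exact mul_le_mul_of_nonneg_left (pow_le_pow_left₀ (norm_nonneg _) hnorm j) (norm_nonneg _)
  · rw [Finset.sum_mul]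
    exact Finset.sum_congr rfl fun j _ => by rw [mul_pow]; ring

end FA.PeriodPolynomial

end
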